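import Fermat.Agent.MUL.Orig.S14.CrossingInterface
import Fermat.Agent.MUL.Orig.S14.NormClassesSubgroup
import Fermat.Agent.MUL.S14.Crossing.Statements
import Fermat.Agent.MUL.Orig.S14.FinalA

section MergeWrap_S14_Crossing_Abstract -- from S14/Crossing/Abstract.lean

/-!
# S14, crossing: the class group computation (abstract form)

`K ⊆ L` of degree `p`; two auxiliary pairs `(E₁, M₁)`, `(E₂, M₂)` over `K` with `L ⊆ M_i`, in which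
the ideals killed by the character `χ_i` are norm classes; a common overfield `E₃ ⊇ E₁, E₂`
carrying an ideal `P₃` with `χ₁(N P₃) = χ₂(N P₃) = ω ^ k`, `p ∤ k`.  Then for ideals `B_i` of
`E_i` of norm `ℓ` with `χ₁(ℓ) = ω`, `χ₂(ℓ) = ω ^ u`:
`[N_{E₂/K} B₂] = [N_{E₁/K} B₁] ^ u` modulo norm classes of `L/K`.
-/

set_option autoImplicit false

open NumberField
open scoped nonZeroDivisors

namespace Fermat.Agent.S14.Cross

/-- In a group, `x ^ a ∈ N`, `x ^ b ∈ N` and `gcd(a, b) = 1` imply `x ∈ N`. -/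
theorem ca_mem_of_pow_mem {G : Type*} [Group G] (N : Subgroup G) {x : G} {a b : ℕ}
    (hab : Nat.Coprime a b) (ha : x ^ a ∈ N) (hb : x ^ b ∈ N) : x ∈ N := by
  have h1 : (x ^ a) ^ (Nat.gcdA a b) * (x ^ b) ^ (Nat.gcdB a b) = x := by
    rw [← zpow_natCast, ← zpow_natCast, ← zpow_mul, ← zpow_mul, ← zpow_add,
      ← Nat.gcd_eq_gcd_ab, hab.gcd_eq_one, Nat.cast_one, zpow_one]
  rw [← h1]
  exact N.mul_mem (N.zpow_mem ha _) (N.zpow_mem hb _)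

/-- Pure group theory behind the crossing argument. -/
theorem ca_group {G : Type*} [CommGroup G] (N : Subgroup G) {p u j k : ℕ} (hp : p.Prime)
    (hpow : ∀ x : G, x ^ p ∈ N) (hk : ¬ p ∣ k) (hujk : u * j ≡ k [MOD p])
    {a a' b : G} (h1 : a ^ k * b ∈ N) (h2 : a' ^ j * b ∈ N) :
    ∃ c ∈ N, a' = a ^ u * c := by
  have hj : ¬ p ∣ j := by
    intro hj
    apply hk
    have : u * j ≡ 0 [MOD p] := (Nat.modEq_zero_iff_dvd).mpr (Dvd.dvd.mul_left hj u)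
    exact (Nat.modEq_zero_iff_dvd).mp (hujk.symm.trans this)
  -- a ^ k * (a' ^ j)⁻¹ ∈ N
  have h3 : a ^ k * (a' ^ j)⁻¹ ∈ N := by
    have := N.mul_mem h1 (N.inv_mem h2)
    have e : a ^ k * b * (a' ^ j * b)⁻¹ = a ^ k * (a' ^ j)⁻¹ := by
      rw [mul_inv, mul_mul_mul_comm, mul_inv_cancel, mul_one]
    rwa [e] at this
  -- a ^ (u * j) ≡ a ^ k mod N
  have h4 : a ^ (u * j) * (a ^ k)⁻¹ ∈ N := by
    rcases Nat.le_total k (u * j) with hle | hle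
    · obtain ⟨t, ht⟩ := (Nat.modEq_iff_dvd' hle).mp hujk.symm
      have : a ^ (u * j) = a ^ k * (a ^ t) ^ p := by
        rw [← pow_mul, ← pow_add, mul_comm t p, ← ht, Nat.add_sub_cancel' hle]
      rw [this, mul_comm (a ^ k), mul_assoc, mul_inv_cancel, mul_one]
      exact hpow _
    · obtain ⟨t, ht⟩ := (Nat.modEq_iff_dvd' hle).mp hujk
      have : a ^ k = a ^ (u * j) * (a ^ t) ^ p := by
        rw [← pow_mul, ← pow_add, mul_comm t p, ← ht, Nat.add_sub_cancel' hle]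
      rw [this, mul_inv, ← mul_assoc, mul_inv_cancel, one_mul]
      exact N.inv_mem (hpow _)
  have h5 : (a ^ u * a'⁻¹) ^ j ∈ N := by
    have := N.mul_mem h4 h3
    have e : a ^ (u * j) * (a ^ k)⁻¹ * (a ^ k * (a' ^ j)⁻¹) = (a ^ u * a'⁻¹) ^ j := by
      rw [mul_pow, ← pow_mul, inv_pow, mul_assoc, inv_mul_cancel_left]
    rwa [e] at this
  have h6 : a ^ u * a'⁻¹ ∈ N :=
    ca_mem_of_pow_mem N ((Nat.coprime_comm.mp ((Nat.Prime.coprime_iff_not_dvd hp).mpr hj)))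
      h5 (hpow _)
  refine ⟨(a ^ u * a'⁻¹)⁻¹, N.inv_mem h6, ?_⟩
  rw [mul_inv, inv_inv, mul_inv_cancel_left]

section abstract

variable (K L E₁ M₁ E₂ M₂ E₃ : Type)
  [Field K] [NumberField K] [Field L] [NumberField L]
  [Field E₁] [NumberField E₁] [Field M₁] [NumberField M₁]
  [Field E₂] [NumberField E₂] [Field M₂] [NumberField M₂]
  [Field E₃] [NumberField E₃]
  [Algebra K L]
  [Algebra K E₁] [Algebra E₁ M₁] [Algebra L M₁] [Algebra K M₁]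
  [IsScalarTower K E₁ M₁] [IsScalarTower K L M₁]
  [Algebra K E₂] [Algebra E₂ M₂] [Algebra L M₂] [Algebra K M₂]
  [IsScalarTower K E₂ M₂] [IsScalarTower K L M₂]
  [Algebra K E₃] [Algebra E₁ E₃] [Algebra E₂ E₃] [IsScalarTower K E₁ E₃] [IsScalarTower K E₂ E₃]

/-- One half of the crossing: the class of `N_{E/K}(B) ^ k * N_{E₃/K}(P₃) ^ e` is a norm class of
`L/K` as soon as `χ` kills the norm of `B ^ k * N_{E₃/E}(P₃) ^ e`. -/
theorem ca_half (hNF : NormFunct) {r ℓ k e : ℕ}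
    (E M : Type) [Field E] [NumberField E] [Field M] [NumberField M]
    [Algebra K E] [Algebra E M] [Algebra L M] [Algebra K M]
    [IsScalarTower K E M] [IsScalarTower K L M] [Algebra E E₃] [IsScalarTower K E E₃]
    (χ : DirichletCharacter ℂ r)
    (hE : ∀ I : (Ideal (𝓞 E))⁰, (Ideal.absNorm (I : Ideal (𝓞 E))).Coprime r →
      χ ((Ideal.absNorm (I : Ideal (𝓞 E)) : ℕ) : ZMod r) = 1 →
      ClassGroup.mk0 I ∈ normClasses E M)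
    (B : Ideal (𝓞 E)) (P₃ : Ideal (𝓞 E₃)) (hP₃ : P₃ ≠ ⊥)
    (hB : Ideal.absNorm B = ℓ) (hℓ : ℓ.Coprime r) (hP : (Ideal.absNorm P₃).Coprime r)
    (hχ : χ (ℓ : ZMod r) ^ k * χ ((Ideal.absNorm P₃ : ℕ) : ZMod r) ^ e = 1)
    (q A : (Ideal (𝓞 K))⁰) (hq : (q : Ideal (𝓞 K)) = Ideal.relNorm (𝓞 K) B)
    (hA : (A : Ideal (𝓞 K)) = Ideal.relNorm (𝓞 K) P₃) :
    ClassGroup.mk0 q ^ k * ClassGroup.mk0 A ^ e ∈ normClasses K L := by
  have hB0 : B ≠ ⊥ := by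
    intro h
    have h1 : (q : Ideal (𝓞 K)) = ⊥ := by rw [hq, h, Ideal.relNorm_bot]
    exact nonZeroDivisors.coe_ne_zero q h1
  have hA₁0 : Ideal.relNorm (𝓞 E) P₃ ≠ ⊥ := by
    rw [Ne, Ideal.relNorm_eq_bot_iff]; exact hP₃
  have hI0 : B ^ k * Ideal.relNorm (𝓞 E) P₃ ^ e ≠ ⊥ :=
    mul_ne_zero (pow_ne_zero _ hB0) (pow_ne_zero _ hA₁0)
  have hnorm : Ideal.absNorm (B ^ k * Ideal.relNorm (𝓞 E) P₃ ^ e) =
      ℓ ^ k * Ideal.absNorm P₃ ^ e := by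
    rw [map_mul, map_pow, map_pow, hB, Ideal.absNorm_relNorm]
  have hmem := hE ⟨B ^ k * Ideal.relNorm (𝓞 E) P₃ ^ e, mem_nonZeroDivisors_of_ne_zero hI0⟩
    (by
      show (Ideal.absNorm (B ^ k * Ideal.relNorm (𝓞 E) P₃ ^ e)).Coprime r
      rw [hnorm]
      exact Nat.Coprime.mul_left (Nat.Coprime.pow_left _ hℓ) (Nat.Coprime.pow_left _ hP))
    (by
      show χ ((Ideal.absNorm (B ^ k * Ideal.relNorm (𝓞 E) P₃ ^ e) : ℕ) : ZMod r) = 1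
      rw [hnorm, Nat.cast_mul, Nat.cast_pow, Nat.cast_pow, map_mul, map_pow, map_pow, hχ])
  have hfin := hNF K L E M ⟨B ^ k * Ideal.relNorm (𝓞 E) P₃ ^ e,
    mem_nonZeroDivisors_of_ne_zero hI0⟩ (q ^ k * A ^ e) hmem (by
      show ((q ^ k * A ^ e : (Ideal (𝓞 K))⁰) : Ideal (𝓞 K)) =
        Ideal.relNorm (𝓞 K) (B ^ k * Ideal.relNorm (𝓞 E) P₃ ^ e)
      rw [map_mul, map_pow, map_pow, Ideal.relNorm_relNorm, Submonoid.coe_mul,
        SubmonoidClass.coe_pow, SubmonoidClass.coe_pow, hq, hA])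
  rwa [map_mul, map_pow, map_pow] at hfin

/-- **Abstract crossing lemma.** -/
theorem crossAbstract (hNF : NormFunct) {p r₁ r₂ ℓ u k : ℕ} (hp : p.Prime) (hk : ¬ p ∣ k)
    (hu : ¬ p ∣ u) (hLK : Module.finrank K L = p)
    (χ₁ : DirichletCharacter ℂ r₁) (χ₂ : DirichletCharacter ℂ r₂) (ω : ℂ) (hω : ω ^ p = 1)
    (hχ₁ : χ₁ (ℓ : ZMod r₁) = ω) (hχ₂ : χ₂ (ℓ : ZMod r₂) = ω ^ u)
    (hE₁ : ∀ I : (Ideal (𝓞 E₁))⁰, (Ideal.absNorm (I : Ideal (𝓞 E₁))).Coprime r₁ →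
      χ₁ ((Ideal.absNorm (I : Ideal (𝓞 E₁)) : ℕ) : ZMod r₁) = 1 →
      ClassGroup.mk0 I ∈ normClasses E₁ M₁)
    (hE₂ : ∀ I : (Ideal (𝓞 E₂))⁰, (Ideal.absNorm (I : Ideal (𝓞 E₂))).Coprime r₂ →
      χ₂ ((Ideal.absNorm (I : Ideal (𝓞 E₂)) : ℕ) : ZMod r₂) = 1 →
      ClassGroup.mk0 I ∈ normClasses E₂ M₂)
    (B₁ : Ideal (𝓞 E₁)) (B₂ : Ideal (𝓞 E₂)) (P₃ : Ideal (𝓞 E₃)) (hP₃ : P₃ ≠ ⊥)
    (hB₁ : Ideal.absNorm B₁ = ℓ) (hB₂ : Ideal.absNorm B₂ = ℓ)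
    (hℓ₁ : ℓ.Coprime r₁) (hℓ₂ : ℓ.Coprime r₂)
    (hP₁ : (Ideal.absNorm P₃).Coprime r₁) (hP₂ : (Ideal.absNorm P₃).Coprime r₂)
    (hχP₁ : χ₁ ((Ideal.absNorm P₃ : ℕ) : ZMod r₁) = ω ^ k)
    (hχP₂ : χ₂ ((Ideal.absNorm P₃ : ℕ) : ZMod r₂) = ω ^ k)
    (q₁ q₂ : (Ideal (𝓞 K))⁰) (hq₁ : (q₁ : Ideal (𝓞 K)) = Ideal.relNorm (𝓞 K) B₁)
    (hq₂ : (q₂ : Ideal (𝓞 K)) = Ideal.relNorm (𝓞 K) B₂) :
    ∃ c ∈ normClasses K L, ClassGroup.mk0 q₂ = ClassGroup.mk0 q₁ ^ u * c := by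
  have : Fact p.Prime := ⟨hp⟩
  -- the exponent `j` with `u * j ≡ k mod p`
  have hu0 : (u : ZMod p) ≠ 0 := by
    rwa [Ne, ZMod.natCast_eq_zero_iff]
  obtain ⟨j, hj⟩ : ∃ j : ℕ, u * j ≡ k [MOD p] := by
    refine ⟨((u : ZMod p)⁻¹ * (k : ZMod p)).val, ?_⟩
    rw [← ZMod.natCast_eq_natCast_iff, Nat.cast_mul, ZMod.natCast_val, ZMod.cast_id', id,
      ← mul_assoc, mul_inv_cancel₀ hu0, one_mul]
  obtain ⟨t, ht⟩ : ∃ t : ℕ, u * j + k * (p - 1) = p * t := by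
    have h1 : u * j + k * (p - 1) ≡ 0 [MOD p] := by
      have h2 : u * j + k * (p - 1) ≡ k + k * (p - 1) [MOD p] := Nat.ModEq.add_right _ hj
      have h3 : k + k * (p - 1) = p * k := by
        have := hp.one_le
        conv_lhs => rw [← mul_one k, mul_assoc, one_mul, ← mul_add, Nat.add_sub_cancel' this]
        exact mul_comm _ _
      rw [h3] at h2
      exact h2.trans ((Nat.modEq_zero_iff_dvd).mpr (dvd_mul_right p k))
    exact (Nat.modEq_zero_iff_dvd).mp h1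
  have hA0 : Ideal.relNorm (𝓞 K) P₃ ≠ ⊥ := by
    rw [Ne, Ideal.relNorm_eq_bot_iff]; exact hP₃
  set A : (Ideal (𝓞 K))⁰ := ⟨Ideal.relNorm (𝓞 K) P₃, mem_nonZeroDivisors_of_ne_zero hA0⟩
  have h1 := ca_half K L E₃ hNF E₁ M₁ χ₁ hE₁ B₁ P₃ hP₃ hB₁ hℓ₁ hP₁ (k := k) (e := p - 1)
    (by
      rw [hχ₁, hχP₁, ← pow_mul, ← pow_add]
      have : k + k * (p - 1) = p * k := by
        have := hp.one_le
        conv_lhs => rw [← mul_one k, mul_assoc, one_mul, ← mul_add, Nat.add_sub_cancel' this]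
        exact mul_comm _ _
      rw [this, pow_mul, hω, one_pow]) q₁ A hq₁ rfl
  have h2 := ca_half K L E₃ hNF E₂ M₂ χ₂ hE₂ B₂ P₃ hP₃ hB₂ hℓ₂ hP₂ (k := j) (e := p - 1)
    (by
      rw [hχ₂, hχP₂, ← pow_mul, ← pow_mul, ← pow_add, ht, pow_mul, hω, one_pow]) q₂ A hq₂ rfl
  obtain ⟨N, hN, hNpow⟩ := normClassesSubgroup K L
  rw [hLK] at hNpow
  have h1' : ClassGroup.mk0 q₁ ^ k * ClassGroup.mk0 A ^ (p - 1) ∈ N := by
    rw [← SetLike.mem_coe, hN]; exact h1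
  have h2' : ClassGroup.mk0 q₂ ^ j * ClassGroup.mk0 A ^ (p - 1) ∈ N := by
    rw [← SetLike.mem_coe, hN]; exact h2
  obtain ⟨c, hc, hcq⟩ := ca_group N hp hNpow hk hj h1' h2'
  refine ⟨c, ?_, hcq⟩
  rw [← hN]; exact hc

end abstract

end Fermat.Agent.S14.Cross
end MergeWrap_S14_Crossing_Abstract

section MergeWrap_S14_Crossing_CompareBasic -- from S14/Crossing/CompareBasic.lean

/-!
# S14, crossing: small lemmas for the assembly of `Compare`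
-/

set_option autoImplicit false

open NumberField Polynomial
open scoped nonZeroDivisors IntermediateField

noncomputable section

namespace Fermat.Agent.S14.Cross

/-- An automorphism of `L/ℚ` fixing `ζ`, as an automorphism of `L/ℚ(ζ)`. -/
def tauK {L : Type} [Field L] [NumberField L] (ζ : L) (τ : L ≃ₐ[ℚ] L) (hτ : τ ζ = ζ) :
    L ≃ₐ[ℚ⟮ζ⟯] L :=
  AlgEquiv.ofRingEquiv (f := τ.toRingEquiv) (fun x =>
    (IntermediateField.mem_fixingSubgroup_iff _ _).mp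
      ((x9a_mem_fixingSubgroup_iff ζ τ).mpr hτ) x x.2)

@[simp] theorem tauK_apply {L : Type} [Field L] [NumberField L] (ζ : L) (τ : L ≃ₐ[ℚ] L)
    (hτ : τ ζ = ζ) (x : L) : tauK ζ τ hτ x = τ x := rfl

theorem tauK_pow_apply {L : Type} [Field L] [NumberField L] (ζ : L) (τ : L ≃ₐ[ℚ] L)
    (hτ : τ ζ = ζ) (n : ℕ) (x : L) : (tauK ζ τ hτ ^ n) x = (τ ^ n) x := by
  induction n generalizing x with
  | zero => simp
  | succ n ih => rw [pow_succ, pow_succ, AlgEquiv.mul_apply, AlgEquiv.mul_apply, ih, tauK_apply]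

theorem tauK_ne_one {L : Type} [Field L] [NumberField L] (ζ : L) (τ : L ≃ₐ[ℚ] L)
    (hτ : τ ζ = ζ) (h1 : τ ≠ 1) : tauK ζ τ hτ ≠ 1 := by
  intro h
  apply h1
  ext x
  have := DFunLike.congr_fun h x
  simpa using this

/-- The number of automorphisms of `L/ℚ(ζ)`. -/
theorem card_galK {L : Type} [Field L] [NumberField L] [IsGalois ℚ L] (ζ : L) :
    Nat.card (L ≃ₐ[ℚ⟮ζ⟯] L) = Nat.card {τ : L ≃ₐ[ℚ] L // τ ζ = ζ} := by
  have : IsGalois ℚ⟮ζ⟯ L := IsGalois.tower_top_of_isGalois ℚ ℚ⟮ζ⟯ L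
  rw [IsGalois.card_aut_eq_finrank, x9a_finrank]

/-- Chinese remainder theorem for units. -/
theorem exists_unit_crt {r r' : ℕ} [NeZero r] [NeZero r'] (h : r.Coprime r') (a₁ : (ZMod r)ˣ)
    (a₂ : (ZMod r')ˣ) :
    ∃ a : (ZMod (r * r'))ˣ, ZMod.unitsMap (dvd_mul_right r r') a = a₁ ∧
      ZMod.unitsMap (dvd_mul_left r' r) a = a₂ := by
  obtain ⟨n, hn1, hn2⟩ := Nat.chineseRemainder h (a₁ : ZMod r).val (a₂ : ZMod r').val
  have e1 : ((n : ℕ) : ZMod r) = a₁ := by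
    rw [(ZMod.natCast_eq_natCast_iff _ _ _).mpr hn1, ZMod.natCast_val, ZMod.cast_id', id]
  have e2 : ((n : ℕ) : ZMod r') = a₂ := by
    rw [(ZMod.natCast_eq_natCast_iff _ _ _).mpr hn2, ZMod.natCast_val, ZMod.cast_id', id]
  have c1 : n.Coprime r := by
    rw [← ZMod.isUnit_iff_coprime, e1]; exact a₁.isUnit
  have c2 : n.Coprime r' := by
    rw [← ZMod.isUnit_iff_coprime, e2]; exact a₂.isUnit
  refine ⟨ZMod.unitOfCoprime n (Nat.Coprime.mul_right c1 c2), Units.ext ?_, Units.ext ?_⟩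
  · rw [ZMod.unitsMap_val, ZMod.coe_unitOfCoprime, ZMod.cast_natCast (dvd_mul_right r r'), e1]
  · rw [ZMod.unitsMap_val, ZMod.coe_unitOfCoprime, ZMod.cast_natCast (dvd_mul_left r' r), e2]

/-- If `n ∈ I` and `I ≠ ⊤` then `absNorm I` is not coprime to `n`. -/
theorem natCast_not_mem_of_coprime {E : Type} [Field E] [NumberField E] {I : Ideal (𝓞 E)}
    (hI : I ≠ ⊤) {n : ℕ} (h : (Ideal.absNorm I).Coprime n) : (n : 𝓞 E) ∉ I := by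
  intro hn
  apply hI
  rw [Ideal.eq_top_iff_one]
  have h1 : ((Ideal.absNorm I : ℕ) : 𝓞 E) ∈ I := by
    have := Ideal.absNorm_mem I
    exact_mod_cast this
  have h2 : ((Ideal.absNorm I : ℤ) * Nat.gcdA (Ideal.absNorm I) n +
      (n : ℤ) * Nat.gcdB (Ideal.absNorm I) n : ℤ) = 1 := by
    rw [← Nat.gcd_eq_gcd_ab, h.gcd_eq_one, Nat.cast_one]
  have h3 : ((((Ideal.absNorm I : ℤ) * Nat.gcdA (Ideal.absNorm I) n +
      (n : ℤ) * Nat.gcdB (Ideal.absNorm I) n : ℤ)) : 𝓞 E) ∈ I := by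
    push_cast
    exact I.add_mem (I.mul_mem_right _ h1) (I.mul_mem_right _ hn)
  rw [h2] at h3
  simpa using h3

instance isScalarTower_K_EH_MH (L : Type) [Field L] [NumberField L] [IsGalois ℚ L] (ζ : L)
    (m : ℕ) [NeZero m] (H : Subgroup (Gam L ζ m)) :
    IsScalarTower ℚ⟮ζ⟯ (EH L ζ m H) (MH L ζ m H) :=
  IsScalarTower.of_algebraMap_eq (fun _ => rfl)

end Fermat.Agent.S14.Cross
end
end MergeWrap_S14_Crossing_CompareBasic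

section MergeWrap_S14_Crossing_CompareHalf -- from S14/Crossing/CompareHalf.lean

/-!
# S14, crossing: one auxiliary pair `(E, M)`, `E = Ω^(ker Θ)`, `M = L · E`
-/

set_option autoImplicit false

open NumberField Polynomial
open scoped nonZeroDivisors IntermediateField

noncomputable section

namespace Fermat.Agent.S14.Cross

variable {L : Type} [Field L] [NumberField L] [IsGalois ℚ L] {ζ : L} {m : ℕ} [NeZero m]

/-- Value of `Θ`. -/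
theorem theta_apply (ψ : (L ≃ₐ[ℚ⟮ζ⟯] L) →* ℂˣ) {d : ℕ} (hd : d ∣ m) (χ : DirichletCharacter ℂ d)
    (g : Gam L ζ m) :
    Theta L ζ m ψ hd χ g = ψ (resL L ζ m g) * (χ.toUnitHom (ZMod.unitsMap hd (cyc L ζ m g)))⁻¹ :=
  rfl

theorem mem_ker_theta_iff (ψ : (L ≃ₐ[ℚ⟮ζ⟯] L) →* ℂˣ) {d : ℕ} (hd : d ∣ m)
    (χ : DirichletCharacter ℂ d) (g : Gam L ζ m) :
    g ∈ (Theta L ζ m ψ hd χ).ker ↔
      χ ((ZMod.unitsMap hd (cyc L ζ m g) : (ZMod d)ˣ) : ZMod d) = ((ψ (resL L ζ m g) : ℂˣ) : ℂ) := by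
  rw [MonoidHom.mem_ker, theta_apply, mul_inv_eq_one, ← MulChar.coe_toUnitHom, eq_comm,
    Units.ext_iff]

/-- `resL` maps `ker Θ` onto `Gal(L/K)`. -/
theorem resL_ker_theta_surj (ψ : (L ≃ₐ[ℚ⟮ζ⟯] L) →* ℂˣ) {d : ℕ} (hd : d ∣ m)
    (χ : DirichletCharacter ℂ d)
    (hsurj : ∀ (σ : L ≃ₐ[ℚ⟮ζ⟯] L) (a : (ZMod m)ˣ),
      ∃ g : Gam L ζ m, resL L ζ m g = σ ∧ cyc L ζ m g = a)
    (him : ∀ σ : L ≃ₐ[ℚ⟮ζ⟯] L, ∃ a : (ZMod d)ˣ, χ (a : ZMod d) = ((ψ σ : ℂˣ) : ℂ))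
    (σ : L ≃ₐ[ℚ⟮ζ⟯] L) : ∃ g ∈ (Theta L ζ m ψ hd χ).ker, resL L ζ m g = σ := by
  obtain ⟨a, ha⟩ := him σ
  obtain ⟨b, hb⟩ := ZMod.unitsMap_surjective hd a
  obtain ⟨g, hg1, hg2⟩ := hsurj σ b
  refine ⟨g, ?_, hg1⟩
  rw [mem_ker_theta_iff, hg2, hb, ha, hg1]

/-- The primitive `p`-th root of unity `ζ`, as an element of `E_H`. -/
def zetaEH (L : Type) [Field L] [NumberField L] [IsGalois ℚ L] (ζ : L) (m : ℕ) [NeZero m]
    (H : Subgroup (Gam L ζ m)) : EH L ζ m H :=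
  algebraMap ℚ⟮ζ⟯ (EH L ζ m H) (IntermediateField.AdjoinSimple.gen ℚ ζ)

theorem zetaEH_spec {p : ℕ} (hζ : IsPrimitiveRoot ζ p) (H : Subgroup (Gam L ζ m)) :
    IsPrimitiveRoot (zetaEH L ζ m H) p := by
  have h1 : IsPrimitiveRoot (IntermediateField.AdjoinSimple.gen ℚ ζ) p := by
    have : algebraMap ℚ⟮ζ⟯ L (IntermediateField.AdjoinSimple.gen ℚ ζ) = ζ :=
      IntermediateField.AdjoinSimple.algebraMap_gen ℚ ζ
    rw [← this] at hζ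
    exact IsPrimitiveRoot.of_map_of_injective (f := algebraMap ℚ⟮ζ⟯ L) hζ (algebraMap ℚ⟮ζ⟯ L).injective
  exact h1.map_of_injective (algebraMap ℚ⟮ζ⟯ (EH L ζ m H)).injective

/-- One auxiliary pair: the reciprocity statement in `(E, M)` and the prime of degree one. -/
theorem cmp_half (hERec : ERec) (hU1a : FinrankEHMH) (hU1b : UnramEHMH) (hb : ChiNormMH)
    (hc : SplitPrimeEH) (ha : NormResidue)
    (p : ℕ) (r : ℕ) (hrm : r ∣ m) (ψ : (L ≃ₐ[ℚ⟮ζ⟯] L) →* ℂˣ) (χ : DirichletCharacter ℂ r)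
    (hp : p.Prime) (hp2 : p ≠ 2) (hζ : IsPrimitiveRoot ζ p)
    (hcard : Nat.card (L ≃ₐ[ℚ⟮ζ⟯] L) = p) (hunr : UnramifiedEverywhere ℚ⟮ζ⟯ L)
    (hr : r.Prime) (hrp : r % p = 1) (hmr : (m / r).Coprime r)
    (hsurj : ∀ (σ : L ≃ₐ[ℚ⟮ζ⟯] L) (a : (ZMod m)ˣ),
      ∃ g : Gam L ζ m, resL L ζ m g = σ ∧ cyc L ζ m g = a)
    (hχpow : ∃ k : ℕ, χ ^ (p ^ k) = 1)
    (him : ∀ σ : L ≃ₐ[ℚ⟮ζ⟯] L, ∃ a : (ZMod r)ˣ, χ (a : ZMod r) = ((ψ σ : ℂˣ) : ℂ))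
    (ℓ : ℕ) (Q : Ideal (𝓞 L)) (τ : L ≃ₐ[ℚ⟮ζ⟯] L) (hℓ : ℓ.Prime) (hℓp : ℓ % p = 1)
    (hℓm : ℓ.Coprime m) (hℓr : ℓ.Coprime r) (hQ : Q.IsPrime) (hℓQ : (ℓ : 𝓞 L) ∈ Q)
    (hF : ∀ x : 𝓞 L, ∃ y ∈ Q, τ (x : L) - (x : L) ^ ℓ = (y : L))
    (hχℓ : χ (ℓ : ZMod r) = ((ψ τ : ℂˣ) : ℂ)) (hχℓ1 : χ (ℓ : ZMod r) ≠ 1) :
    (∀ I : (Ideal (𝓞 (EH L ζ m (Theta L ζ m ψ hrm χ).ker)))⁰,
      (Ideal.absNorm (I : Ideal (𝓞 (EH L ζ m (Theta L ζ m ψ hrm χ).ker)))).Coprime r →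
      χ ((Ideal.absNorm (I : Ideal (𝓞 (EH L ζ m (Theta L ζ m ψ hrm χ).ker))) : ℕ) : ZMod r) = 1 →
      ClassGroup.mk0 I ∈ normClasses (EH L ζ m (Theta L ζ m ψ hrm χ).ker)
        (MH L ζ m (Theta L ζ m ψ hrm χ).ker)) ∧
    ∃ B : Ideal (𝓞 (EH L ζ m (Theta L ζ m ψ hrm χ).ker)), B.IsPrime ∧ Ideal.absNorm B = ℓ ∧
      Ideal.relNorm (𝓞 ℚ⟮ζ⟯) B = Q.under (𝓞 ℚ⟮ζ⟯) := by
  have hsH := resL_ker_theta_surj ψ hrm χ hsurj him
  have hKL : Module.finrank ℚ⟮ζ⟯ L = p := by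
    have : IsGalois ℚ⟮ζ⟯ L := IsGalois.tower_top_of_isGalois ℚ ℚ⟮ζ⟯ L
    rw [← IsGalois.card_aut_eq_finrank, hcard]
  -- the prime of degree one
  obtain ⟨B, hBp, hBn, hBr⟩ := hc p L ζ m (Theta L ζ m ψ hrm χ).ker ℓ Q τ hp hζ hunr hℓ hℓp hℓm
    hQ hℓQ hF (by
      intro g hg1 hg2
      rw [mem_ker_theta_iff, hg1, ← hχℓ, ZMod.unitsMap_val, hg2, ZMod.cast_natCast hrm])
  refine ⟨?_, B, hBp, hBn, hBr⟩
  refine hERec p r (EH L ζ m (Theta L ζ m ψ hrm χ).ker) (MH L ζ m (Theta L ζ m ψ hrm χ).ker)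
    (zetaEH L ζ m _) χ hp hp2 hr (zetaEH_spec hζ _) ?_ ?_ ?_ ?_ ?_
  · rw [hU1a L ζ m _ hsH, hKL]
  · exact hU1b L ζ m _ hunr
  · exact ha p L ζ m r hrm ψ χ hp hp2 hζ hcard hunr hr hrp hmr hsurj hχpow him
  · exact hb L ζ m _ ψ r hrm χ le_rfl
  · exact ⟨B, by rw [hBn]; exact hℓr, by rw [hBn]; exact hχℓ1⟩

end Fermat.Agent.S14.Cross
end
end MergeWrap_S14_Crossing_CompareHalf

section MergeWrap_S14_Crossing_CompareThird -- from S14/Crossing/CompareThird.lean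

/-!
# S14, crossing: the common overfield `E₃` and its non-norm prime
-/

set_option autoImplicit false

open NumberField Polynomial
open scoped nonZeroDivisors IntermediateField

noncomputable section

namespace Fermat.Agent.S14.Cross

variable {L : Type} [Field L] [NumberField L] [IsGalois ℚ L] {ζ : L} {m : ℕ} [NeZero m]

/-- In `E_H` (with `resL H = Gal(L/K)`) there is a prime ideal prime to `m` with a Frobenius
element `g ∈ H` which is nontrivial on `L`. -/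
theorem cmp_third (hNN : NonNormPrime) (hU1a : FinrankEHMH) (hU1b : UnramEHMH)
    (hF1 : ExistsFrob) (hF1' : CycFrob) (hF2 : SplitIsNorm)
    (p : ℕ) (H : Subgroup (Gam L ζ m)) (hp : p.Prime) (hp2 : p ≠ 2)
    (hcard : Nat.card (L ≃ₐ[ℚ⟮ζ⟯] L) = p) (hunr : UnramifiedEverywhere ℚ⟮ζ⟯ L)
    (hsH : ∀ σ : L ≃ₐ[ℚ⟮ζ⟯] L, ∃ g ∈ H, resL L ζ m g = σ) :
    ∃ (P₃ : Ideal (𝓞 (EH L ζ m H))) (g : Gam L ζ m), P₃ ≠ ⊥ ∧ (Ideal.absNorm P₃).Coprime m ∧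
      g ∈ H ∧ resL L ζ m g ≠ 1 ∧
      ((cyc L ζ m g : (ZMod m)ˣ) : ZMod m) = ((Ideal.absNorm P₃ : ℕ) : ZMod m) := by
  have hKL : Module.finrank ℚ⟮ζ⟯ L = p := by
    have : IsGalois ℚ⟮ζ⟯ L := IsGalois.tower_top_of_isGalois ℚ ℚ⟮ζ⟯ L
    rw [← IsGalois.card_aut_eq_finrank, hcard]
  obtain ⟨P₃, hP₃p, hP₃m, hP₃n⟩ := hNN p (EH L ζ m H) (MH L ζ m H) m hp hp2
    (by rw [hU1a L ζ m H hsH, hKL]) (hU1b L ζ m H hunr) (NeZero.ne m)
  have hP₃0 : (P₃ : Ideal (𝓞 (EH L ζ m H))) ≠ ⊥ := nonZeroDivisors.coe_ne_zero P₃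
  obtain ⟨g, P, hgF, hPp, hPu, hFrob⟩ := hF1 L ζ m (EH L ζ m H) P₃ hP₃p hP₃0
  have hgH : g ∈ H := by
    rwa [IntermediateField.fixingSubgroup_fixedField] at hgF
  refine ⟨P₃, g, hP₃0, hP₃m, hgH, ?_, ?_⟩
  · intro h1
    exact hP₃n (hF2 L ζ m H P₃ g P hunr hP₃p hgH hPp hPu hFrob h1)
  · have hmP : (m : 𝓞 (Om L m)) ∉ P := by
      intro hm
      have h2 : (m : 𝓞 (EH L ζ m H)) ∈ (P₃ : Ideal (𝓞 (EH L ζ m H))) := by
        rw [← hPu, Ideal.under_def, Ideal.mem_comap, map_natCast]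
        exact hm
      exact natCast_not_mem_of_coprime hP₃p.ne_top hP₃m h2
    have := hF1' L ζ m g P _ m (dvd_refl m) hPp hFrob hmP
    rwa [ZMod.unitsMap_self] at this

end Fermat.Agent.S14.Cross
end
end MergeWrap_S14_Crossing_CompareThird

section MergeWrap_S14_Crossing_CompareChar -- from S14/Crossing/CompareChar.lean

/-!
# S14, crossing: characters for the assembly of `Compare`
-/

set_option autoImplicit false

open NumberField Polynomial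
open scoped nonZeroDivisors IntermediateField

noncomputable section

namespace Fermat.Agent.S14.Cross

/-- `p ∣ orderOf (ℓ mod r)` implies `r ≡ 1 mod p`. -/
theorem mod_eq_one_of_dvd_orderOf {p r ℓ : ℕ} (hp : p.Prime) (hr : r.Prime)
    (hℓr : (ℓ : ZMod r) ≠ 0) (h : p ∣ orderOf (ℓ : ZMod r)) : r % p = 1 := by
  have : Fact r.Prime := ⟨hr⟩
  have h1 : orderOf (ℓ : ZMod r) ∣ r - 1 :=
    orderOf_dvd_of_pow_eq_one (ZMod.pow_card_sub_one_eq_one hℓr)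
  obtain ⟨t, ht⟩ := h.trans h1
  have h2 : r = p * t + 1 := by have := hr.one_le; omega
  rw [h2, Nat.mul_add_mod, Nat.mod_eq_of_lt hp.one_lt]

/-- A character of a group of prime order `p` with prescribed value `ω` (`ω ^ p = 1`) at a
nontrivial element. -/
theorem exists_char_of_prime_card {G : Type*} [Group G] {p : ℕ} (hp : p.Prime)
    (hG : Nat.card G = p) {g : G} (hg : g ≠ 1) (ω : ℂˣ) (hω : ω ^ p = 1) :
    ∃ ψ : G →* ℂˣ, ψ g = ω := by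
  have : Fact p.Prime := ⟨hp⟩
  have hgen : ∀ x, x ∈ Subgroup.zpowers g := fun x => mem_zpowers_of_prime_card hG hg
  have hord : orderOf g = p := by
    have : Finite G := Nat.finite_of_card_ne_zero (hG ▸ hp.ne_zero)
    have h1 : g ^ p = 1 := by rw [← hG]; exact pow_card_eq_one'
    exact orderOf_eq_prime h1 hg
  refine ⟨monoidHomOfForallMemZpowers hgen (g' := ω) ?_, monoidHomOfForallMemZpowers_apply_gen _ _⟩
  rw [hord]
  exact orderOf_dvd_of_pow_eq_one hω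

/-- In a group of prime order `p`, the values of a character are values of a Dirichlet character
`χ` whose value at `ℓ` is a primitive `p`-th root of unity. -/
theorem im_le_of_prim {G : Type*} [Group G] {p : ℕ} (hp : p.Prime) (hG : Nat.card G = p)
    (ψ : G →* ℂˣ) {r ℓ : ℕ} (χ : DirichletCharacter ℂ r) (hℓr : ℓ.Coprime r) {ω : ℂ}
    (hω : IsPrimitiveRoot ω p) (hχ : χ (ℓ : ZMod r) = ω) (σ : G) :
    ∃ a : (ZMod r)ˣ, χ (a : ZMod r) = ((ψ σ : ℂˣ) : ℂ) := by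
  have : NeZero p := ⟨hp.ne_zero⟩
  have : Finite G := Nat.finite_of_card_ne_zero (hG ▸ hp.ne_zero)
  have h1 : ((ψ σ : ℂˣ) : ℂ) ^ p = 1 := by
    rw [← Units.val_pow_eq_pow_val, ← map_pow, ← hG, pow_card_eq_one', map_one, Units.val_one]
  obtain ⟨i, -, hi⟩ := hω.eq_pow_of_pow_eq_one h1
  refine ⟨ZMod.unitOfCoprime ℓ hℓr ^ i, ?_⟩
  rw [Units.val_pow_eq_pow_val, ZMod.coe_unitOfCoprime, map_pow, hχ, hi]

end Fermat.Agent.S14.Cross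
end
end MergeWrap_S14_Crossing_CompareChar

section MergeWrap_S14_Crossing_Compare -- from S14/Crossing/Compare.lean

/-!
# S14, crossing: assembly of `Compare` (C15)
-/

set_option autoImplicit false

open NumberField Polynomial
open scoped nonZeroDivisors IntermediateField

noncomputable section

namespace Fermat.Agent.S14.Cross

/-- `Compare` from the pieces of the crossing core. -/
theorem compareImp_of (hG3 : GamSurj) (hU1a : FinrankEHMH) (hU1b : UnramEHMH) (hF1 : ExistsFrob)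
    (hF1' : CycFrob) (hF2 : SplitIsNorm) (hb : ChiNormMH) (hc : SplitPrimeEH)
    (ha : NormResidue) : CompareImp := by
  intro _ hERec hNF hAuxP hAuxC _ hNN p L _ _ _ ζ hp hp3 hζ hcard hconj hunr ℓ u Q Q' τ q q' hℓ hℓ1 hu hQ hQ'
  intro hℓQ hℓQ' hτ hτ1 hF hF' hq hq'
  have hp2 : p ≠ 2 := by omega
  have hunrK : UnramifiedEverywhere ℚ⟮ζ⟯ L := x9a_unramified ζ hunr
  have hcardK : Nat.card (L ≃ₐ[ℚ⟮ζ⟯] L) = p := (card_galK ζ).trans hcard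
  have hτK1 : tauK ζ τ hτ ≠ 1 := tauK_ne_one ζ τ hτ hτ1
  have hKL : Module.finrank ℚ⟮ζ⟯ L = p := by rw [x9a_finrank, hcard]
  -- auxiliary primes
  obtain ⟨r, r', hr, hr', hrr', hrp, hr'p, hrℓ, hr'ℓ, hord, hord'⟩ := hAuxP p ℓ hp hp2 hℓ hℓ1
  have hℓr : ℓ.Coprime r := (Nat.coprime_primes hℓ hr).mpr (Ne.symm hrℓ)
  have hℓr' : ℓ.Coprime r' := (Nat.coprime_primes hℓ hr').mpr (Ne.symm hr'ℓ)
  have hℓr0 : (ℓ : ZMod r) ≠ 0 := by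
    rw [Ne, ZMod.natCast_eq_zero_iff]
    exact fun h => hrℓ ((Nat.prime_dvd_prime_iff_eq hr hℓ).mp h)
  have hℓr'0 : (ℓ : ZMod r') ≠ 0 := by
    rw [Ne, ZMod.natCast_eq_zero_iff]
    exact fun h => hr'ℓ ((Nat.prime_dvd_prime_iff_eq hr' hℓ).mp h)
  have hr1 : r % p = 1 := mod_eq_one_of_dvd_orderOf hp hr hℓr0 hord
  have hr'1 : r' % p = 1 := mod_eq_one_of_dvd_orderOf hp hr' hℓr'0 hord'
  have hcop : r.Coprime r' := (Nat.coprime_primes hr hr').mpr hrr'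
  have : NeZero r := ⟨hr.ne_zero⟩
  have : NeZero r' := ⟨hr'.ne_zero⟩
  have : NeZero (r * r') := ⟨mul_ne_zero hr.ne_zero hr'.ne_zero⟩
  have hrm : r ∣ r * r' := dvd_mul_right r r'
  have hr'm : r' ∣ r * r' := dvd_mul_left r' r
  have hmr : (r * r' / r).Coprime r := by
    rw [Nat.mul_div_cancel_left _ hr.pos]; exact hcop.symm
  have hmr' : (r * r' / r').Coprime r' := by
    rw [Nat.mul_div_cancel _ hr'.pos]; exact hcop
  have hmp : (r * r').Coprime p :=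
    Nat.Coprime.mul_left ((Nat.coprime_primes hr hp).mpr hrp) ((Nat.coprime_primes hr' hp).mpr hr'p)
  have hℓm : ℓ.Coprime (r * r') := Nat.Coprime.mul_right hℓr hℓr'
  -- characters
  have hω₀ : IsPrimitiveRoot (Complex.exp (2 * Real.pi * Complex.I / p)) p :=
    Complex.isPrimitiveRoot_exp p hp.ne_zero
  set ω₀ : ℂ := Complex.exp (2 * Real.pi * Complex.I / p) with hω₀def
  have hω₀u : IsPrimitiveRoot (ω₀ ^ u) p :=
    hω₀.pow_of_coprime u ((Nat.coprime_comm.mp ((Nat.Prime.coprime_iff_not_dvd hp).mpr hu)))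
  obtain ⟨ψ, hψ⟩ := exists_char_of_prime_card hp hcardK hτK1
    (Units.mk0 ω₀ (hω₀.ne_zero hp.ne_zero)) (by
      apply Units.ext
      rw [Units.val_pow_eq_pow_val, Units.val_mk0, hω₀.pow_eq_one, Units.val_one])
  have hψ' : ((ψ (tauK ζ τ hτ) : ℂˣ) : ℂ) = ω₀ := by rw [hψ, Units.val_mk0]
  obtain ⟨χ₁, hχ₁, hχ₁pow⟩ := hAuxC p r ℓ ω₀ hp hr hℓr0 hord hω₀
  obtain ⟨χ₂, hχ₂, hχ₂pow⟩ := hAuxC p r' ℓ (ω₀ ^ u) hp hr' hℓr'0 hord' hω₀u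
  have him₁ := im_le_of_prim hp hcardK ψ χ₁ hℓr hω₀ hχ₁
  have him₂ := im_le_of_prim hp hcardK ψ χ₂ hℓr' hω₀u hχ₂
  -- surjectivity
  have hsurj := hG3 p L ζ (r * r') hp hp3 hζ hcard hconj hmp
  -- the two halves
  obtain ⟨hE₁, B₁, hB₁p, hB₁n, hB₁r⟩ := cmp_half hERec hU1a hU1b hb hc ha p r hrm ψ χ₁ hp hp2 hζ
    hcardK hunrK hr hr1 hmr hsurj hχ₁pow him₁ ℓ Q (tauK ζ τ hτ) hℓ hℓ1 hℓm hℓr hQ hℓQ hF
    (by rw [hχ₁, hψ']) (by rw [hχ₁]; exact hω₀.ne_one hp.one_lt)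
  obtain ⟨hE₂, B₂, hB₂p, hB₂n, hB₂r⟩ := cmp_half hERec hU1a hU1b hb hc ha p r' hr'm ψ χ₂ hp hp2
    hζ hcardK hunrK hr' hr'1 hmr' hsurj hχ₂pow him₂ ℓ Q' (tauK ζ τ hτ ^ u) hℓ hℓ1 hℓm hℓr' hQ'
    hℓQ' (fun x => by
      obtain ⟨y, hy, hxy⟩ := hF' x
      exact ⟨y, hy, by rw [tauK_pow_apply]; exact hxy⟩)
    (by rw [hχ₂, map_pow, Units.val_pow_eq_pow_val, hψ'])
    (by rw [hχ₂]; exact hω₀u.ne_one hp.one_lt)
  -- the third field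
  obtain ⟨P₃, g₃, hP₃0, hP₃m, hg₃H, hres₃, hcyc₃⟩ := cmp_third hNN hU1a hU1b hF1 hF1' hF2 p
    ((Theta L ζ (r * r') ψ hrm χ₁).ker ⊓ (Theta L ζ (r * r') ψ hr'm χ₂).ker) hp hp2 hcardK hunrK
    (by
      intro σ
      obtain ⟨a₁, ha₁⟩ := him₁ σ
      obtain ⟨a₂, ha₂⟩ := him₂ σ
      obtain ⟨a, haa₁, haa₂⟩ := exists_unit_crt hcop a₁ a₂
      obtain ⟨g, hg1, hg2⟩ := hsurj σ a
      refine ⟨g, Subgroup.mem_inf.mpr ⟨(mem_ker_theta_iff ψ hrm χ₁ g).mpr ?_,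
        (mem_ker_theta_iff ψ hr'm χ₂ g).mpr ?_⟩, hg1⟩
      · rw [hg2, haa₁, ha₁, hg1]
      · rw [hg2, haa₂, ha₂, hg1])
  have : Fact p.Prime := ⟨hp⟩
  obtain ⟨k, hk⟩ : ∃ k : ℕ, tauK ζ τ hτ ^ k = resL L ζ (r * r') g₃ :=
    (Submonoid.mem_powers_iff _ _).mp (mem_powers_of_prime_card hcardK hτK1)
  have hkp : ¬ p ∣ k := by
    rintro ⟨t, rfl⟩
    apply hres₃
    have : Finite (L ≃ₐ[ℚ⟮ζ⟯] L) := Nat.finite_of_card_ne_zero (hcardK ▸ hp.ne_zero)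
    rw [← hk, pow_mul, ← hcardK, pow_card_eq_one', one_pow]
  have hχP₁ : χ₁ ((Ideal.absNorm P₃ : ℕ) : ZMod r) = ω₀ ^ k := by
    have h1 := (mem_ker_theta_iff ψ hrm χ₁ g₃).mp (Subgroup.mem_inf.mp hg₃H).1
    rw [ZMod.unitsMap_val, hcyc₃, ZMod.cast_natCast hrm, ← hk, map_pow,
      Units.val_pow_eq_pow_val, hψ'] at h1
    exact h1
  have hχP₂ : χ₂ ((Ideal.absNorm P₃ : ℕ) : ZMod r') = ω₀ ^ k := by
    have h1 := (mem_ker_theta_iff ψ hr'm χ₂ g₃).mp (Subgroup.mem_inf.mp hg₃H).2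
    rw [ZMod.unitsMap_val, hcyc₃, ZMod.cast_natCast hr'm, ← hk, map_pow,
      Units.val_pow_eq_pow_val, hψ'] at h1
    exact h1
  -- towers
  have h13 : EH L ζ (r * r') (Theta L ζ (r * r') ψ hrm χ₁).ker ≤
      EH L ζ (r * r') ((Theta L ζ (r * r') ψ hrm χ₁).ker ⊓ (Theta L ζ (r * r') ψ hr'm χ₂).ker) :=
    IntermediateField.fixedField_le inf_le_left
  have h23 : EH L ζ (r * r') (Theta L ζ (r * r') ψ hr'm χ₂).ker ≤
      EH L ζ (r * r') ((Theta L ζ (r * r') ψ hrm χ₁).ker ⊓ (Theta L ζ (r * r') ψ hr'm χ₂).ker) :=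
    IntermediateField.fixedField_le inf_le_right
  let _ : Algebra (EH L ζ (r * r') (Theta L ζ (r * r') ψ hrm χ₁).ker)
      (EH L ζ (r * r') ((Theta L ζ (r * r') ψ hrm χ₁).ker ⊓ (Theta L ζ (r * r') ψ hr'm χ₂).ker)) :=
    (IntermediateField.inclusion h13).toRingHom.toAlgebra
  let _ : Algebra (EH L ζ (r * r') (Theta L ζ (r * r') ψ hr'm χ₂).ker)
      (EH L ζ (r * r') ((Theta L ζ (r * r') ψ hrm χ₁).ker ⊓ (Theta L ζ (r * r') ψ hr'm χ₂).ker)) :=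
    (IntermediateField.inclusion h23).toRingHom.toAlgebra
  have : IsScalarTower ℚ⟮ζ⟯ (EH L ζ (r * r') (Theta L ζ (r * r') ψ hrm χ₁).ker)
      (EH L ζ (r * r') ((Theta L ζ (r * r') ψ hrm χ₁).ker ⊓ (Theta L ζ (r * r') ψ hr'm χ₂).ker)) :=
    IsScalarTower.of_algebraMap_eq (fun _ => rfl)
  have : IsScalarTower ℚ⟮ζ⟯ (EH L ζ (r * r') (Theta L ζ (r * r') ψ hr'm χ₂).ker)
      (EH L ζ (r * r') ((Theta L ζ (r * r') ψ hrm χ₁).ker ⊓ (Theta L ζ (r * r') ψ hr'm χ₂).ker)) :=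
    IsScalarTower.of_algebraMap_eq (fun _ => rfl)
  exact crossAbstract ℚ⟮ζ⟯ L (EH L ζ (r * r') (Theta L ζ (r * r') ψ hrm χ₁).ker)
    (MH L ζ (r * r') (Theta L ζ (r * r') ψ hrm χ₁).ker)
    (EH L ζ (r * r') (Theta L ζ (r * r') ψ hr'm χ₂).ker)
    (MH L ζ (r * r') (Theta L ζ (r * r') ψ hr'm χ₂).ker)
    (EH L ζ (r * r') ((Theta L ζ (r * r') ψ hrm χ₁).ker ⊓ (Theta L ζ (r * r') ψ hr'm χ₂).ker))
    hNF hp hkp hu hKL χ₁ χ₂ ω₀ hω₀.pow_eq_one hχ₁ hχ₂ hE₁ hE₂ B₁ B₂ P₃ hP₃0 hB₁n hB₂n hℓr hℓr'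
    (Nat.Coprime.coprime_dvd_right hrm hP₃m) (Nat.Coprime.coprime_dvd_right hr'm hP₃m)
    hχP₁ hχP₂ q q' (hq.trans hB₁r.symm) (hq'.trans hB₂r.symm)

end Fermat.Agent.S14.Cross
end
end MergeWrap_S14_Crossing_Compare
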