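import Fermat.Agent.MUL.S14.Crossing.Statements
import Fermat.Agent.MUL.Orig.S05.H27.OfValuation

section MergeWrap_S14_Crossing_FinrankEHMH -- from S14/Crossing/FinrankEHMH.lean

/-!
# S14 crossing, piece C4 (U1a): `[M_H : E_H] = [L : K]` when `resL` maps `H` onto `Gal(L/K)`
-/

set_option autoImplicit false
set_option linter.unusedSectionVars false

open NumberField Polynomial
open scoped nonZeroDivisors IntermediateField

noncomputable section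

namespace Fermat.Agent.S14.Cross

variable (L : Type) [Field L] [NumberField L] [IsGalois ℚ L] (ζ : L)
variable (m : ℕ) [NeZero m] (H : Subgroup (Gam L ζ m))

/-- the homomorphism `Gal(Ω/E_H) → Gal(L/K)` whose kernel is `HL`. -/
def c4_hom : (Om L m ≃ₐ[EH L ζ m H] Om L m) →* (L ≃ₐ[ℚ⟮ζ⟯] L) :=
  (resL L ζ m).comp (AlgEquiv.restrictScalarsHom ℚ⟮ζ⟯)

theorem c4_hom_ker : (c4_hom L ζ m H).ker = HL L ζ m H := rfl

theorem c4_hom_surjective (hH : ∀ σ : L ≃ₐ[ℚ⟮ζ⟯] L, ∃ g ∈ H, resL L ζ m g = σ) :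
    Function.Surjective (c4_hom L ζ m H) := by
  intro σ
  obtain ⟨g, hg, hgσ⟩ := hH σ
  have hgfix : g ∈ (EH L ζ m H).fixingSubgroup := by
    rw [IntermediateField.mem_fixingSubgroup_iff]
    intro x hx
    exact (IntermediateField.mem_fixedField_iff H x).mp hx g hg
  refine ⟨IntermediateField.fixingSubgroupEquiv (EH L ζ m H) ⟨g, hgfix⟩, ?_⟩
  have : AlgEquiv.restrictScalarsHom ℚ⟮ζ⟯
      (IntermediateField.fixingSubgroupEquiv (EH L ζ m H) ⟨g, hgfix⟩) = g := by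
    ext x
    rfl
  show resL L ζ m (AlgEquiv.restrictScalarsHom ℚ⟮ζ⟯ _) = σ
  rw [this, hgσ]

/-- **(C4)** if `resL` maps `H` onto `Gal(L/K)` then `[M_H : E_H] = [L : K]`. -/
theorem finrankEHMH : FinrankEHMH := by
  intro L _ _ _ ζ m _ H hH
  have h1 : Nat.card (MH L ζ m H ≃ₐ[EH L ζ m H] MH L ζ m H) =
      Module.finrank (EH L ζ m H) (MH L ζ m H) :=
    IsGalois.card_aut_eq_finrank (EH L ζ m H) (MH L ζ m H)
  have h2 : Nat.card (L ≃ₐ[ℚ⟮ζ⟯] L) = Module.finrank ℚ⟮ζ⟯ L :=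
    IsGalois.card_aut_eq_finrank ℚ⟮ζ⟯ L
  rw [← h1, ← h2]
  have e1 : ((Om L m ≃ₐ[EH L ζ m H] Om L m) ⧸ HL L ζ m H) ≃*
      (MH L ζ m H ≃ₐ[EH L ζ m H] MH L ζ m H) :=
    IsGalois.normalAutEquivQuotient (HL L ζ m H)
  have e2 : ((Om L m ≃ₐ[EH L ζ m H] Om L m) ⧸ (c4_hom L ζ m H).ker) ≃* (L ≃ₐ[ℚ⟮ζ⟯] L) :=
    QuotientGroup.quotientKerEquivOfSurjective _ (c4_hom_surjective L ζ m H hH)
  have c1 := Nat.card_congr e1.toEquiv
  have c2 := Nat.card_congr e2.toEquiv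
  exact c1.symm.trans c2

end Fermat.Agent.S14.Cross
end
end MergeWrap_S14_Crossing_FinrankEHMH
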